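import Mathlib

/-!
# Deligne–Serre group lemma, part 1: the arithmetic of the orbit equation

`Σ_ω m_ω + 2 (N - 1) = r N` with `m_ω e_ω = N`:  the classical equation `Σ (1 - 1/e_ω) = 2 - 2/N`
(only the orbits with `e_ω ≥ 2` count).  Then `N = 1`, or some `m_ω ∈ {1, 2}` with `e_ω ≥ 2`,
or `N ≤ 60`.
-/

set_option autoImplicit false

namespace Fermat.Agent.DSG

/-- three orbits, the first with `e = 2`, the second with `e = 3` -/
theorem orbitEq_two_three {N m₁ m₂ m₃ e₃ : ℕ} (h1 : 2 * m₁ = N) (h2 : 3 * m₂ = N)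
    (h3 : m₃ * e₃ = N) (he : 2 ≤ e₃) (hsum : m₁ + m₂ + m₃ = N + 2) : N ≤ 60 := by
  -- `6 m₃ = N + 12`, so `m₃ (6 - e₃) = 12`
  have h6 : 6 * m₃ = N + 12 := by omega
  have he6 : e₃ < 6 := by
    by_contra hge
    have : 6 * m₃ ≤ m₃ * e₃ := by nlinarith
    omega
  interval_cases e₃ <;> omega

/-- three orbits, the first with `e = 2` -/
theorem orbitEq_two {N m₁ m₂ m₃ e₂ e₃ : ℕ} (h1 : 2 * m₁ = N)
    (h2 : m₂ * e₂ = N) (h3 : m₃ * e₃ = N) (he2 : 2 ≤ e₂) (he3 : 2 ≤ e₃)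
    (hsum : m₁ + m₂ + m₃ = N + 2) : m₂ = 2 ∨ m₃ = 2 ∨ N ≤ 60 := by
  by_cases h4 : 4 ≤ e₂ ∧ 4 ≤ e₃
  · exfalso
    have a2 : 4 * m₂ ≤ N := by nlinarith [h4.1]
    have a3 : 4 * m₃ ≤ N := by nlinarith [h4.2]
    omega
  · have h5 : e₂ ≤ 3 ∨ e₃ ≤ 3 := by omega
    rcases h5 with h5 | h5
    · interval_cases e₂
      · right; left; omega
      · right; right
        exact orbitEq_two_three h1 (by omega) h3 he3 hsum
    · interval_cases e₃
      · left; omega
      · right; right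
        exact orbitEq_two_three (m₁ := m₁) (m₂ := m₃) (m₃ := m₂) (e₃ := e₂) h1 (by omega) h2 he2
          (by omega)

/-- three orbits -/
theorem orbitEq_three {N m₁ m₂ m₃ e₁ e₂ e₃ : ℕ} (h1 : m₁ * e₁ = N)
    (h2 : m₂ * e₂ = N) (h3 : m₃ * e₃ = N) (he1 : 2 ≤ e₁) (he2 : 2 ≤ e₂) (he3 : 2 ≤ e₃)
    (hsum : m₁ + m₂ + m₃ = N + 2) : (m₁ = 2 ∨ m₂ = 2 ∨ m₃ = 2) ∨ N ≤ 60 := by
  by_cases h3' : 3 ≤ e₁ ∧ 3 ≤ e₂ ∧ 3 ≤ e₃
  · exfalso
    have a1 : 3 * m₁ ≤ N := by nlinarith [h3'.1]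
    have a2 : 3 * m₂ ≤ N := by nlinarith [h3'.2.1]
    have a3 : 3 * m₃ ≤ N := by nlinarith [h3'.2.2]
    omega
  · have h5 : e₁ = 2 ∨ e₂ = 2 ∨ e₃ = 2 := by omega
    rcases h5 with h5 | h5 | h5
    · subst h5
      rcases orbitEq_two (by omega) h2 h3 he2 he3 hsum with h | h | h
      · exact Or.inl (Or.inr (Or.inl h))
      · exact Or.inl (Or.inr (Or.inr h))
      · exact Or.inr h
    · subst h5
      rcases orbitEq_two (m₁ := m₂) (m₂ := m₁) (m₃ := m₃) (by omega) h1 h3 he1 he3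
        (by omega) with h | h | h
      · exact Or.inl (Or.inl h)
      · exact Or.inl (Or.inr (Or.inr h))
      · exact Or.inr h
    · subst h5
      rcases orbitEq_two (m₁ := m₃) (m₂ := m₁) (m₃ := m₂) (by omega) h1 h2 he1 he2
        (by omega) with h | h | h
      · exact Or.inl (Or.inl h)
      · exact Or.inl (Or.inr (Or.inl h))
      · exact Or.inr h

/-- **The orbit equation.**  `Ω` a finite set of orbits with sizes `m ω` and stabiliser orders
`e ω` (relative to the kernel), `m ω * e ω = N`, and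
`Σ_ω m ω + 2 (N - 1) = #Ω · N`.  Then `N = 1`, or there is an orbit of size `1` or `2` with
`e ω ≥ 2`, or `N ≤ 60`. -/
theorem orbitEq {Ω : Type*} [Fintype Ω] {N : ℕ} (m e : Ω → ℕ)
    (hme : ∀ ω, m ω * e ω = N)
    (hsum : ∑ ω, m ω + 2 * (N - 1) = Fintype.card Ω * N) :
    N = 1 ∨ (∃ ω, 2 ≤ e ω ∧ (m ω = 1 ∨ m ω = 2)) ∨ N ≤ 60 := by
  classical
  by_contra hcon
  push Not at hcon
  obtain ⟨hN1, hno, hN60⟩ := hcon
  have hm_pos : ∀ ω, 1 ≤ m ω := by
    intro ω
    rcases Nat.eq_zero_or_pos (m ω) with h | h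
    · have := hme ω
      rw [h, zero_mul] at this
      omega
    · exact h
  have he_pos : ∀ ω, 1 ≤ e ω := by
    intro ω
    rcases Nat.eq_zero_or_pos (e ω) with h | h
    · have := hme ω
      rw [h, mul_zero] at this
      omega
    · exact h
  -- the orbits with `e ≥ 2`
  set T : Finset Ω := Finset.univ.filter (fun ω => 2 ≤ e ω) with hT
  have hfree : ∀ ω ∈ Finset.univ.filter (fun ω => ¬ 2 ≤ e ω), m ω = N := by
    intro ω hω
    rw [Finset.mem_filter] at hω
    have h1 : e ω = 1 := by have := he_pos ω; omega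
    have := hme ω
    rw [h1, mul_one] at this
    exact this
  have hsplit : ∑ ω, m ω = ∑ ω ∈ T, m ω
      + (Finset.univ.filter (fun ω => ¬ 2 ≤ e ω)).card * N := by
    rw [← Finset.sum_filter_add_sum_filter_not Finset.univ (fun ω => 2 ≤ e ω) m,
      Finset.sum_congr rfl hfree, Finset.sum_const, smul_eq_mul]
  have hcard : Fintype.card Ω = T.card + (Finset.univ.filter (fun ω => ¬ 2 ≤ e ω)).card := by
    rw [← Finset.card_univ, hT]
    exact (Finset.card_filter_add_card_filter_not (s := Finset.univ) (fun ω => 2 ≤ e ω)).symm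
  have hsumT : ∑ ω ∈ T, m ω + 2 * (N - 1) = T.card * N := by
    rw [hsplit, hcard, add_mul] at hsum
    omega
  have hm3 : ∀ ω ∈ T, 3 ≤ m ω := by
    intro ω hω
    rw [hT, Finset.mem_filter] at hω
    have h1 := hm_pos ω
    have h2 := hno ω hω.2
    omega
  have hm2 : ∀ ω ∈ T, 2 * m ω ≤ N := by
    intro ω hω
    rw [hT, Finset.mem_filter] at hω
    have := hme ω
    nlinarith [hω.2]
  -- at most three orbits
  have hle : 2 * ∑ ω ∈ T, m ω ≤ T.card * N := by
    rw [Finset.mul_sum]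
    calc ∑ ω ∈ T, 2 * m ω ≤ ∑ _ω ∈ T, N := Finset.sum_le_sum hm2
      _ = T.card * N := by rw [Finset.sum_const, smul_eq_mul]
  have hge : 3 * T.card ≤ ∑ ω ∈ T, m ω := by
    calc 3 * T.card = ∑ _ω ∈ T, 3 := by rw [Finset.sum_const, smul_eq_mul, mul_comm]
      _ ≤ ∑ ω ∈ T, m ω := Finset.sum_le_sum hm3
  have hr : T.card ≤ 3 := by
    by_contra h4
    have h4' : 4 ≤ T.card := by omega
    have : 4 * N ≤ T.card * N := Nat.mul_le_mul_right N h4'
    omega
  interval_cases hc : T.card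
  · simp at hsumT
    omega
  · simp only [one_mul] at hsumT
    omega
  · have : 2 * N = 2 * N := rfl
    omega
  · obtain ⟨x, y, z, hxy, hxz, hyz, hxyz⟩ := Finset.card_eq_three.mp hc
    have hx : x ∈ T := by rw [hxyz]; simp
    have hy : y ∈ T := by rw [hxyz]; simp
    have hz : z ∈ T := by rw [hxyz]; simp
    have hs : ∑ ω ∈ T, m ω = m x + m y + m z := by
      rw [hxyz, Finset.sum_insert (by simp [hxy, hxz]), Finset.sum_insert (by simp [hyz]),
        Finset.sum_singleton]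
      ring
    have hex : 2 ≤ e x := by rw [hT, Finset.mem_filter] at hx; exact hx.2
    have hey : 2 ≤ e y := by rw [hT, Finset.mem_filter] at hy; exact hy.2
    have hez : 2 ≤ e z := by rw [hT, Finset.mem_filter] at hz; exact hz.2
    rcases orbitEq_three (hme x) (hme y) (hme z) hex hey hez (by omega) with h | h
    · rcases h with h | h | h
      · exact hno x hex |>.2 h
      · exact hno y hey |>.2 h
      · exact hno z hez |>.2 h
    · omega

end Fermat.Agent.DSG
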