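import Mathlib
import Fermat.Agent.Lib.DSGroup.Arith

/-!
# Deligne–Serre group lemma, part 2: group actions in which every element outside the kernel has
exactly two fixed points

`G` finite acting on a finite set `X`, `Z ≤ G` acting trivially, every `g ∉ Z` has exactly two
fixed points.  Then some point has a stabiliser of index `≤ 2` (and bigger than `Z`), or
`#G ≤ 60 #Z`  (the classification of the finite subgroups of `PGL₂`, in the weak form:
cyclic / dihedral / order `≤ 60`).
-/

set_option autoImplicit false

namespace Fermat.Agent.DSG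

open MulAction

variable {G X : Type*} [Group G] [MulAction G X]

theorem card_eq_sum_index_stabilizer [Finite G] [Finite X]
    [Fintype (Quotient (orbitRel G X))] :
    Nat.card X = ∑ ω : Quotient (orbitRel G X), (stabilizer G ω.out).index := by
  rw [Nat.card_congr (selfEquivSigmaOrbitsQuotientStabilizer G X), Nat.card_sigma]
  rfl

/-- **Trichotomy.** -/
theorem twoFixed_trichotomy [Finite G] [Finite X] (Z : Subgroup G)
    (hZ : ∀ z ∈ Z, ∀ x : X, z • x = x)
    (h2 : ∀ g : G, g ∉ Z → Nat.card (fixedBy X g) = 2) :
    (∃ x : X, ¬ stabilizer G x ≤ Z ∧ (stabilizer G x).index ≤ 2) ∨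
      Nat.card G ≤ 60 * Nat.card Z := by
  classical
  have : Fintype G := Fintype.ofFinite _
  have : Fintype X := Fintype.ofFinite _
  have : Fintype (Quotient (orbitRel G X)) := Fintype.ofFinite _
  have hZstab : ∀ x : X, Z ≤ stabilizer G x := fun x z hz => hZ z hz x
  have hcardG : Z.index * Nat.card Z = Nat.card G := Z.index_mul_card
  have hZpos : 0 < Nat.card Z := Nat.card_pos
  have hNpos : 0 < Z.index := by
    rcases Nat.eq_zero_or_pos Z.index with h | h
    · rw [h, zero_mul] at hcardG
      have : 0 < Nat.card G := Nat.card_pos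
      omega
    · exact h
  -- Burnside
  have hB := sum_card_fixedBy_eq_card_orbits_mul_card_group G X
  have hfix : ∀ g : G, Fintype.card (fixedBy X g) = if g ∈ Z then Nat.card X else 2 := by
    intro g
    split_ifs with hg
    · rw [← Nat.card_eq_fintype_card]
      apply Nat.card_congr
      exact (Equiv.subtypeUnivEquiv (fun x => hZ g hg x))
    · rw [← Nat.card_eq_fintype_card]
      exact h2 g hg
  have hsumfix : ∑ g : G, Fintype.card (fixedBy X g)
      = Nat.card Z * Nat.card X + 2 * (Nat.card G - Nat.card Z) := by
    rw [Finset.sum_congr rfl (fun g _ => hfix g), Finset.sum_ite, Finset.sum_const,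
      Finset.sum_const, smul_eq_mul, smul_eq_mul]
    have h1 : (Finset.univ.filter (fun g : G => g ∈ Z)).card = Nat.card Z := by
      rw [Nat.card_eq_fintype_card, Fintype.card_subtype]
    have h3 : (Finset.univ.filter (fun g : G => ¬ g ∈ Z)).card = Nat.card G - Nat.card Z := by
      have := Finset.card_filter_add_card_filter_not (s := (Finset.univ : Finset G))
        (fun g : G => g ∈ Z)
      rw [h1, Finset.card_univ, ← Nat.card_eq_fintype_card] at this
      omega
    rw [h1, h3, mul_comm _ 2]
  rw [hsumfix, ← Nat.card_eq_fintype_card (α := G),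
    card_eq_sum_index_stabilizer (G := G) (X := X)] at hB
  -- the orbit equation
  have hme : ∀ ω : Quotient (orbitRel G X),
      (stabilizer G ω.out).index * Z.relIndex (stabilizer G ω.out) = Z.index := by
    intro ω
    rw [mul_comm]
    exact Subgroup.relIndex_mul_index (hZstab _)
  have hsum : ∑ ω : Quotient (orbitRel G X), (stabilizer G ω.out).index + 2 * (Z.index - 1)
      = Fintype.card (Quotient (orbitRel G X)) * Z.index := by
    have e1 : Nat.card G - Nat.card Z = (Z.index - 1) * Nat.card Z := by
      rw [← hcardG, Nat.sub_mul, one_mul]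
    rw [e1, ← hcardG] at hB
    have e2 : (∑ ω : Quotient (orbitRel G X), (stabilizer G ω.out).index + 2 * (Z.index - 1))
        * Nat.card Z = (Fintype.card (Quotient (orbitRel G X)) * Z.index) * Nat.card Z := by
      rw [mul_assoc, ← hB]
      ring
    exact Nat.eq_of_mul_eq_mul_right hZpos e2
  rcases orbitEq (fun ω : Quotient (orbitRel G X) => (stabilizer G ω.out).index)
    (fun ω => Z.relIndex (stabilizer G ω.out)) hme hsum with h | ⟨ω, he, hm⟩ | h
  · right
    rw [← hcardG, h, one_mul]
    omega
  · left
    refine ⟨ω.out, ?_, ?_⟩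
    · intro hle
      have : Z.relIndex (stabilizer G ω.out) = 1 := Subgroup.relIndex_eq_one.mpr hle
      omega
    · rcases hm with hm | hm <;> omega
  · right
    rw [← hcardG]
    exact Nat.mul_le_mul_right _ h

end Fermat.Agent.DSG
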